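import Mathlib
import Fermat.Prelude.Def_CuspForm_HeckeAlgebra
import Fermat.Prelude.Def_CuspForm_IntegralStructure
import Fermat.Prelude.Def_CuspForm_IntegralLattice
import Fermat.Prelude.Thm_CuspForm_intLattice_fg
import Fermat.Prelude.Thm_CuspForm_mem_intLattice_of_mem_heckeAlgebra
import Fermat.Prelude.Thm_CongruenceSubgroup_one_mem_strictPeriods_Gamma0
import Fermat.Prelude.Thm_ModularFormClass_qCoeff_heckeT
import Fermat.Prelude.Thm_ModularFormClass_qCoeff_heckeU
import Fermat.Prelude.Thm_ModularForm_sturm_bound_Gamma0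

set_option autoImplicit false

open CuspForm CongruenceSubgroup ModularFormClass

namespace Fermat.Agent.DS

noncomputable section

variable {N : ℕ} {k : ℤ}

/-- The `n`-th `q`-coefficient as a linear functional on cusp forms of level `Γ₀(N)`. -/
def coeffL (N : ℕ) (k : ℤ) (n : ℕ) : CuspForm (Gamma0 N) k →ₗ[ℂ] ℂ where
  toFun f := qCoeff f n
  map_add' f g := by
    simp only [qCoeff, FunLike.coe_add]
    rw [ModularForm.qExpansion_add one_pos (one_mem_strictPeriods_Gamma0 N) f g, map_add]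
  map_smul' c f := by
    simp only [qCoeff, FunLike.coe_smul]
    rw [ModularForm.qExpansion_smul one_pos (one_mem_strictPeriods_Gamma0 N) c f]
    simp

@[simp] theorem coeffL_apply (n : ℕ) (f : CuspForm (Gamma0 N) k) : coeffL N k n f = qCoeff f n :=
  rfl

theorem qCoeff_zero_eq (f : CuspForm (Gamma0 N) k) : qCoeff f 0 = 0 :=
  CuspFormClass.qExpansion_coeff_zero f one_pos (one_mem_strictPeriods_Gamma0 N)

theorem eq_zero_of_coeffs [NeZero N] (f : CuspForm (Gamma0 N) k)
    (h : ∀ n, 1 ≤ n → qCoeff f n = 0) : f = 0 := by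
  have hmf : (ModularFormClass.modularForm f : ModularForm (Gamma0 N) k) = 0 := by
    refine ModularForm.sturm_bound_Gamma0 N _ fun n _ ↦ ?_
    rcases Nat.eq_zero_or_pos n with rfl | hn
    · exact qCoeff_zero_eq f
    · exact h n hn
  have hcoe : (⇑f : UpperHalfPlane → ℂ) = 0 := by
    have := congrArg (fun F : ModularForm (Gamma0 N) k ↦ (⇑F : UpperHalfPlane → ℂ)) hmf
    simpa using this
  exact DFunLike.coe_injective (hcoe.trans FunLike.coe_zero.symm)

/-- coefficients of `T_p f` -/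
theorem qCoeff_heckeTLin {p : ℕ} (hp : p.Prime) (hpN : ¬ p ∣ N) (f : CuspForm (Gamma0 N) k)
    (n : ℕ) : qCoeff (heckeTLin k hp hpN f) n =
      qCoeff f (n * p) + if p ∣ n then (p : ℂ) ^ (k - 1) * qCoeff f (n / p) else 0 := by
  rw [coe_heckeTLin_apply, ModularFormClass.qCoeff_heckeT f (one_mem_strictPeriods_Gamma0 N)
    hp.ne_zero, ModularForm.coeffHeckeT_apply]

theorem qCoeff_heckeULin [NeZero N] {p : ℕ} (hp : p.Prime) (hpN : p ∣ N)
    (f : CuspForm (Gamma0 N) k) (n : ℕ) :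
    qCoeff (heckeULin k hpN f) n = qCoeff f (n * p) := by
  rw [coe_heckeULin_apply, ModularFormClass.qCoeff_heckeU f (one_mem_strictPeriods_Gamma0 N)
    hp.ne_zero, ModularForm.coeffHeckeU_apply]

/-- The submodule of forms all of whose coefficients are integers divisible by `m`. -/
def divSub (N : ℕ) (k : ℤ) (m : ℤ) : Submodule ℤ (CuspForm (Gamma0 N) k) where
  carrier := {f | ∀ n : ℕ, ∃ c : ℤ, qCoeff f n = ((m * c : ℤ) : ℂ)}
  add_mem' {f g} hf hg n := by
    obtain ⟨a, ha⟩ := hf n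
    obtain ⟨b, hb⟩ := hg n
    refine ⟨a + b, ?_⟩
    have := (coeffL N k n).map_add f g
    simp only [coeffL_apply] at this
    rw [this, ha, hb]; push_cast; ring
  zero_mem' n := ⟨0, by
    have h0 : qCoeff (⇑(0 : CuspForm (Gamma0 N) k)) n = 0 := (coeffL N k n).map_zero
    rw [h0]; simp⟩
  smul_mem' c {f} hf n := by
    obtain ⟨a, ha⟩ := hf n
    refine ⟨c * a, ?_⟩
    have := (coeffL N k n).map_smul (c : ℂ) f
    simp only [coeffL_apply, smul_eq_mul] at this
    rw [Int.cast_smul_eq_zsmul] at this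
    rw [this, ha]; push_cast; ring

theorem mem_divSub {m : ℤ} {f : CuspForm (Gamma0 N) k} :
    f ∈ divSub N k m ↔ ∀ n : ℕ, ∃ c : ℤ, qCoeff f n = ((m * c : ℤ) : ℂ) := Iff.rfl

theorem intLattice_eq_divSub (N : ℕ) (k : ℤ) : intLattice N k = divSub N k 1 := by
  rw [intLattice]
  have : {f : CuspForm (Gamma0 N) k | ∀ n : ℕ, ∃ m : ℤ, qCoeff f n = (m : ℂ)} =
      (divSub N k 1 : Set (CuspForm (Gamma0 N) k)) := by
    ext f
    simp [mem_divSub]
  rw [this]
  exact Submodule.span_eq _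

theorem mem_intLattice {f : CuspForm (Gamma0 N) k} :
    f ∈ intLattice N k ↔ ∀ n : ℕ, ∃ c : ℤ, qCoeff f n = (c : ℂ) := by
  rw [intLattice_eq_divSub, mem_divSub]
  simp

/-- Elements of `m`-divisible part are stable by the Hecke algebra. -/
theorem heckeAlgebra_divSub [NeZero N] (hk : 1 ≤ k) {S : Set ℕ} {m : ℤ} (hm : m ≠ 0)
    {t : Module.End ℂ (CuspForm (Gamma0 N) k)}
    (ht : t ∈ heckeAlgebra N k S) {f : CuspForm (Gamma0 N) k} (hf : f ∈ divSub N k m) :
    t f ∈ divSub N k m := by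
  have hm' : (m : ℂ) ≠ 0 := by exact_mod_cast hm
  have h1 : ((m : ℂ)⁻¹ • f) ∈ intLattice N k := by
    rw [mem_intLattice]
    intro n
    obtain ⟨c, hc⟩ := hf n
    refine ⟨c, ?_⟩
    have := (coeffL N k n).map_smul (m : ℂ)⁻¹ f
    simp only [coeffL_apply, smul_eq_mul] at this
    rw [this, hc]
    push_cast
    field_simp
  have h2 := CuspForm.mem_intLattice_of_mem_heckeAlgebra hk ht h1
  rw [mem_intLattice] at h2
  intro n
  obtain ⟨c, hc⟩ := h2 n
  refine ⟨c, ?_⟩
  rw [map_smul] at hc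
  have := (coeffL N k n).map_smul (m : ℂ)⁻¹ (t f)
  simp only [coeffL_apply, smul_eq_mul] at this
  rw [this] at hc
  field_simp at hc
  rw [hc]
  push_cast
  ring

end

end Fermat.Agent.DS
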