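import Mathlib
import Fermat.Agent.DS.Lattice

set_option autoImplicit false

open CuspForm CongruenceSubgroup ModularFormClass

namespace Fermat.Agent.DS

noncomputable section

variable {N : ℕ} {k : ℤ}

instance finiteDimensional_cuspForm_Gamma0 [NeZero N] :
    FiniteDimensional ℂ (CuspForm (Gamma0 N) k) := by
  let B := (k * (Gamma0 N).index).toNat / 12
  let T : CuspForm (Gamma0 N) k →ₗ[ℂ] (Fin (B + 1) → ℂ) :=
    LinearMap.pi (fun i : Fin (B + 1) => coeffL N k i)
  refine FiniteDimensional.of_injective T ?_
  refine (injective_iff_map_eq_zero _).mpr fun f hf ↦ ?_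
  have hmf : (ModularFormClass.modularForm f : ModularForm (Gamma0 N) k) = 0 := by
    refine ModularForm.sturm_bound_Gamma0 N _ fun n hn ↦ ?_
    have h1 : qCoeff (⇑f) n = 0 := congrFun hf ⟨n, Nat.lt_succ_of_le hn⟩
    exact h1
  have hcoe : (⇑f : UpperHalfPlane → ℂ) = 0 := by
    have := congrArg (fun F : ModularForm (Gamma0 N) k ↦ (⇑F : UpperHalfPlane → ℂ)) hmf
    simpa using this
  exact DFunLike.coe_injective (hcoe.trans FunLike.coe_zero.symm)

/-- Restriction of the Hecke algebra to the integral lattice. -/
def restrictHom [NeZero N] (hk : 1 ≤ k) (S : Set ℕ) :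
    heckeAlgebra N k S →ₐ[ℤ] Module.End ℤ (intLattice N k) where
  toFun t := (t.1.restrictScalars ℤ).restrict
    (fun f hf => CuspForm.mem_intLattice_of_mem_heckeAlgebra hk t.2 hf)
  map_one' := by ext; rfl
  map_mul' s t := by ext; rfl
  map_zero' := by ext; rfl
  map_add' s t := by ext; rfl
  commutes' r := by
    ext f
    simp [LinearMap.restrict_apply]

theorem restrictHom_apply [NeZero N] (hk : 1 ≤ k) (S : Set ℕ) (t : heckeAlgebra N k S)
    (f : intLattice N k) : ((restrictHom hk S t f : intLattice N k) : CuspForm (Gamma0 N) k) =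
      t.1 f := rfl

theorem restrictHom_injective [NeZero N] (hk : 1 ≤ k) (S : Set ℕ)
    (hspan : HasIntegralStructure N k) :
    Function.Injective (restrictHom (N := N) hk S) := by
  rw [injective_iff_map_eq_zero]
  intro t ht
  apply Subtype.ext
  apply LinearMap.ext_on (hspan : Submodule.span ℂ _ = ⊤)
  intro f hf
  have := restrictHom_apply hk S t ⟨f, hf⟩
  rw [ht] at this
  simpa using this.symm

instance intLattice_finite [NeZero N] : Module.Finite ℤ (intLattice N k) :=
  Module.Finite.iff_fg.mpr (CuspForm.intLattice_fg N k)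

/-- reduction of S22 to the integral structure (weights `≥ 1`) -/
theorem heckeAlgebra_finite [NeZero N] (hk : 1 ≤ k) (S : Set ℕ)
    (hspan : HasIntegralStructure N k) : Module.Finite ℤ (heckeAlgebra N k S) := by
  have : Module.Finite ℤ (Module.End ℤ (intLattice N k)) := by
    obtain ⟨n, f, hf⟩ := Module.Finite.exists_fin' ℤ (intLattice N k)
    have hinj : Function.Injective (fun φ : Module.End ℤ (intLattice N k) =>
      (φ.comp f : (Fin n → ℤ) →ₗ[ℤ] intLattice N k)) := by
      intro a b hab
      refine LinearMap.ext fun x => ?_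
      obtain ⟨y, rfl⟩ := hf x
      exact LinearMap.congr_fun hab y
    exact Module.Finite.of_injective (LinearMap.lcomp ℤ (intLattice N k) f) hinj
  exact Module.Finite.of_injective (restrictHom (N := N) hk S).toLinearMap
    (restrictHom_injective hk S hspan)

theorem heckeAlgebra_isIntegral [NeZero N] (hk : 1 ≤ k) (S : Set ℕ)
    (hspan : HasIntegralStructure N k) (t : heckeAlgebra N k S) : IsIntegral ℤ t := by
  have := heckeAlgebra_finite hk S hspan
  exact Algebra.IsIntegral.isIntegral t

end

end Fermat.Agent.DS
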