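import Mathlib

set_option autoImplicit false

/-!
# Common eigenvectors compatible with a prime ideal (Deligne–Serre lifting, abstract part)
-/

namespace Fermat.Agent.DS

variable {K V A : Type*} [Field K] [IsAlgClosed K] [AddCommGroup V] [Module K V]
  [FiniteDimensional K V] [CommRing A]

/-- `W` is stable under the action of `A` and its annihilator is contained in `𝔪`. -/
structure GoodSub (ρ : A →+* Module.End K V) (𝔪 : Ideal A) (W : Submodule K V) : Prop where
  stable : ∀ t : A, ∀ w ∈ W, ρ t w ∈ W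
  ann : ∀ t : A, (∀ w ∈ W, ρ t w = 0) → t ∈ 𝔪

theorem exists_common_eigenvector (ρ : A →+* Module.End K V) (𝔪 : Ideal A) (h𝔪 : 𝔪.IsPrime)
    (h : ∀ t, ρ t = 0 → t ∈ 𝔪) :
    ∃ (v : V) (χ : A →+* K), v ≠ 0 ∧ (∀ t, ρ t v = χ t • v) ∧ ∀ t, χ t = 0 → t ∈ 𝔪 := by
  classical
  -- choose a good subspace of minimal dimension
  have hex : ∃ n : ℕ, ∃ W : Submodule K V, GoodSub ρ 𝔪 W ∧ Module.finrank K W = n := by
    refine ⟨_, ⊤, ⟨fun _ _ _ => trivial, fun t ht => h t ?_⟩, rfl⟩
    ext v
    simpa using ht v trivial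
  obtain ⟨W, hW, hWn⟩ := Nat.find_spec hex
  have hmin : ∀ W' : Submodule K V, GoodSub ρ 𝔪 W' →
      Module.finrank K W ≤ Module.finrank K W' := by
    intro W' hW'
    rw [hWn]
    exact Nat.find_min' hex ⟨W', hW', rfl⟩
  -- `W ≠ ⊥`
  have hWne : W ≠ ⊥ := by
    rintro rfl
    apply h𝔪.ne_top
    rw [Ideal.eq_top_iff_one]
    apply hW.ann 1
    intro w hw
    rw [Submodule.mem_bot] at hw
    simp [hw]
  have hcomm : ∀ s t : A, ∀ v, ρ s (ρ t v) = ρ t (ρ s v) := by
    intro s t v
    rw [← Module.End.mul_apply, ← Module.End.mul_apply, ← map_mul, ← map_mul, mul_comm]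
  -- each `t` acts as scalar on `W`
  have hscal : ∀ t : A, ∃ μ : K, ∀ w ∈ W, ρ t w = μ • w := by
    intro t
    have : Nontrivial W := Submodule.nontrivial_iff_ne_bot.mpr hWne
    let f : Module.End K W := (ρ t).restrict (hW.stable t)
    obtain ⟨μ, hμ⟩ := Module.End.exists_eigenvalue f
    obtain ⟨w0, hw0, hw0ne⟩ := hμ.exists_hasEigenvector
    rw [Module.End.mem_eigenspace_iff] at hw0
    have hw0' : ρ t (w0 : V) = μ • (w0 : V) := by
      have := congrArg Subtype.val hw0
      simpa [f] using this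
    let g : V →ₗ[K] V := ρ t - μ • LinearMap.id
    have hgapp : ∀ v, g v = ρ t v - μ • v := fun v => by simp [g]
    let W1 : Submodule K V := W ⊓ LinearMap.ker g
    let W2 : Submodule K V := W.map g
    have hsg : ∀ (s : A) v, ρ s (g v) = g (ρ s v) := by
      intro s v
      rw [hgapp, hgapp, map_sub, map_smul, hcomm]
    have hst1 : ∀ s : A, ∀ w ∈ W1, ρ s w ∈ W1 := by
      rintro s w ⟨hw, hw'⟩
      refine ⟨hW.stable s w hw, ?_⟩
      rw [SetLike.mem_coe, LinearMap.mem_ker] at hw' ⊢
      rw [← hsg, hw', map_zero]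
    have hst2 : ∀ s : A, ∀ w ∈ W2, ρ s w ∈ W2 := by
      rintro s _ ⟨w, hw, rfl⟩
      exact ⟨ρ s w, hW.stable s w hw, (hsg s w).symm⟩
    have hW2W : W2 ≤ W := by
      rintro _ ⟨w, hw, rfl⟩
      rw [hgapp]
      exact W.sub_mem (hW.stable t w hw) (W.smul_mem _ hw)
    -- W2 has smaller dimension
    have hlt : Module.finrank K W2 < Module.finrank K W := by
      have h1 : Module.finrank K (W.map g) + Module.finrank K (LinearMap.ker (g.domRestrict W)) =
          Module.finrank K W := by
        have := LinearMap.finrank_range_add_finrank_ker (g.domRestrict W)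
        rwa [LinearMap.range_domRestrict] at this
      have h2 : 0 < Module.finrank K (LinearMap.ker (g.domRestrict W)) := by
        rw [Module.finrank_pos_iff_exists_ne_zero]
        refine ⟨⟨w0, ?_⟩, ?_⟩
        · rw [LinearMap.mem_ker, LinearMap.domRestrict_apply, hgapp, hw0', sub_self]
        · intro hh
          apply hw0ne
          exact congrArg Subtype.val hh
      show Module.finrank K (W.map g) < _
      omega
    -- one of them is good
    have hor : GoodSub ρ 𝔪 W1 ∨ GoodSub ρ 𝔪 W2 := by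
      by_contra hcon
      push Not at hcon
      obtain ⟨h1, h2⟩ := hcon
      have h1' : ∃ s : A, (∀ w ∈ W1, ρ s w = 0) ∧ s ∉ 𝔪 := by
        by_contra hc
        push Not at hc
        exact h1 ⟨hst1, hc⟩
      have h2' : ∃ s : A, (∀ w ∈ W2, ρ s w = 0) ∧ s ∉ 𝔪 := by
        by_contra hc
        push Not at hc
        exact h2 ⟨hst2, hc⟩
      obtain ⟨s1, hs1, hs1m⟩ := h1'
      obtain ⟨s2, hs2, hs2m⟩ := h2'
      have : s1 * s2 ∈ 𝔪 := by
        apply hW.ann
        intro w hw
        rw [map_mul, Module.End.mul_apply]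
        apply hs1
        refine ⟨hW.stable _ _ hw, ?_⟩
        rw [SetLike.mem_coe, LinearMap.mem_ker, ← hsg]
        exact hs2 _ ⟨w, hw, rfl⟩
      rcases h𝔪.mem_or_mem this with h | h
      · exact hs1m h
      · exact hs2m h
    have hgood1 : GoodSub ρ 𝔪 W1 := by
      rcases hor with h | h
      · exact h
      · exact absurd (hmin W2 h) (not_le.mpr hlt)
    have hW1W : W1 = W := by
      apply Submodule.eq_of_le_of_finrank_le inf_le_left
      exact hmin W1 hgood1
    refine ⟨μ, fun w hw => ?_⟩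
    rw [← hW1W] at hw
    have := hw.2
    rw [SetLike.mem_coe, LinearMap.mem_ker, hgapp, sub_eq_zero] at this
    exact this
  obtain ⟨v, hvW, hv0⟩ := (Submodule.ne_bot_iff W).mp hWne
  choose μ hμ using hscal
  have hinj : ∀ a b : K, a • v = b • v → a = b := fun a b hab => smul_left_injective K hv0 hab
  refine ⟨v, ⟨⟨⟨μ, ?_⟩, ?_⟩, ?_, ?_⟩, hv0, fun t => hμ t v hvW, ?_⟩
  · apply hinj
    rw [← hμ 1 v hvW]
    simp
  · intro s t
    apply hinj
    show μ (s * t) • v = (μ s * μ t) • v
    rw [← hμ (s * t) v hvW, map_mul, Module.End.mul_apply, hμ t v hvW, map_smul, hμ s v hvW,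
      smul_smul, mul_comm]
  · apply hinj
    show μ 0 • v = (0 : K) • v
    rw [← hμ 0 v hvW]
    simp
  · intro s t
    apply hinj
    show μ (s + t) • v = (μ s + μ t) • v
    rw [← hμ (s + t) v hvW, map_add, LinearMap.add_apply, hμ t v hvW, hμ s v hvW, add_smul]
  · intro t ht
    apply hW.ann t
    intro w hw
    rw [hμ t w hw]
    have : μ t = 0 := ht
    rw [this, zero_smul]

end Fermat.Agent.DS
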