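import Mathlib
import Fermat.Agent.DS.Restrict

set_option autoImplicit false

open CuspForm CongruenceSubgroup ModularFormClass

namespace Fermat.Agent.DS

theorem mul_of_coprime_of_hecke {R : Type*} [CommRing R] (b e : ℕ → R) (h1 : b 1 = 1)
    (h : ∀ p : ℕ, p.Prime → ∀ n : ℕ,
      b (n * p) + (if p ∣ n then e p * b (n / p) else 0) = b p * b n) :
    ∀ m n : ℕ, m.Coprime n → b (m * n) = b m * b n := by
  intro m
  induction m using Nat.recOnPosPrimePosCoprime with
  | zero =>
    intro n hn
    rw [Nat.coprime_zero_left] at hn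
    subst hn
    simp [h1]
  | one =>
    intro n _
    simp [h1]
  | prime_pow p r hp hr =>
    intro n hn
    have hpn : ¬ p ∣ n := by
      have : p.Coprime n := Nat.Coprime.coprime_dvd_left (dvd_pow_self p hr.ne') hn
      exact (Nat.Prime.coprime_iff_not_dvd hp).mp this
    clear hn hr
    have key : ∀ r : ℕ, b (p ^ r * n) = b (p ^ r) * b n ∧
        b (p ^ (r + 1) * n) = b (p ^ (r + 1)) * b n := by
      intro r
      induction r with
      | zero =>
        refine ⟨by simp [h1], ?_⟩
        have := h p hp n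
        rw [if_neg hpn, add_zero] at this
        rw [zero_add, pow_one, mul_comm p n]
        exact this
      | succ r ih =>
        refine ⟨ih.2, ?_⟩
        have e1 := h p hp (p ^ (r + 1) * n)
        have e2 := h p hp (p ^ (r + 1))
        have d1 : p ∣ p ^ (r + 1) * n := dvd_mul_of_dvd_left (dvd_pow_self p (by omega)) n
        have d2 : p ∣ p ^ (r + 1) := dvd_pow_self p (by omega)
        have q1 : p ^ (r + 1) * n / p = p ^ r * n := by
          rw [pow_succ', mul_assoc]; exact Nat.mul_div_cancel_left _ hp.pos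
        have q2 : p ^ (r + 1) / p = p ^ r := by
          rw [pow_succ']; exact Nat.mul_div_cancel_left _ hp.pos
        rw [if_pos d1, q1, show p ^ (r + 1) * n * p = p ^ (r + 1 + 1) * n by ring, ih.1, ih.2] at e1
        rw [if_pos d2, q2, show p ^ (r + 1) * p = p ^ (r + 1 + 1) by ring] at e2
        have : b (p ^ (r + 1 + 1)) = b p * b (p ^ (r + 1)) - e p * b (p ^ r) := by
          rw [← e2]; ring
        rw [this]
        have : b (p ^ (r + 1 + 1) * n) =
            b p * (b (p ^ (r + 1)) * b n) - e p * (b (p ^ r) * b n) := by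
          rw [← e1]; ring
        rw [this]
        ring
    exact (key r).1
  | coprime a c ha hc hac iha ihc =>
    intro n hn
    have h1 : a.Coprime n := Nat.Coprime.coprime_mul_right hn
    have h2 : c.Coprime n := Nat.Coprime.coprime_mul_left hn
    rw [mul_assoc, iha (c * n) (Nat.Coprime.mul_right hac h1), ihc n h2, iha c hac, mul_assoc]

theorem isNormalizedEigenform_of_eigen {N : ℕ} [NeZero N] (g : CuspForm (Gamma0 N) 2)
    (h1 : qCoeff g 1 = 1)
    (hT : ∀ (p : ℕ) (hp : p.Prime) (hpN : ¬ p ∣ N), ∃ c : ℂ, heckeTLin 2 hp hpN g = c • g)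
    (hU : ∀ (p : ℕ) (_ : p.Prime) (hpN : p ∣ N), ∃ c : ℂ, heckeULin 2 hpN g = c • g) :
    g.IsNormalizedEigenform := by
  classical
  have hsmul : ∀ (c : ℂ) (n : ℕ), qCoeff (⇑(c • g)) n = c * qCoeff g n := fun c n =>
    (coeffL N 2 n).map_smul c g
  have hTr : ∀ (p : ℕ) (_ : p.Prime) (_ : ¬ p ∣ N) (n : ℕ),
      qCoeff g (n * p) + (if p ∣ n then (p : ℂ) * qCoeff g (n / p) else 0) =
        qCoeff g p * qCoeff g n := by
    intro p hp hpN n
    obtain ⟨c, hc⟩ := hT p hp hpN
    have hn : ∀ n, qCoeff g (n * p) + (if p ∣ n then (p : ℂ) ^ ((2 : ℤ) - 1) * qCoeff g (n / p)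
        else 0) = c * qCoeff g n := by
      intro n
      rw [← qCoeff_heckeTLin hp hpN, hc, hsmul]
    have hc1 := hn 1
    rw [one_mul, if_neg (by simpa using hp.one_lt.ne'), h1, mul_one, add_zero] at hc1
    have := hn n
    rw [← hc1] at this
    rw [← this]
    norm_num
  have hUr : ∀ (p : ℕ) (_ : p.Prime) (_ : p ∣ N) (n : ℕ),
      qCoeff g (n * p) = qCoeff g p * qCoeff g n := by
    intro p hp hpN n
    obtain ⟨c, hc⟩ := hU p hp hpN
    have hn : ∀ n, qCoeff g (n * p) = c * qCoeff g n := by
      intro n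
      rw [← qCoeff_heckeULin hp hpN, hc, hsmul]
    have hc1 := hn 1
    rw [one_mul, h1, mul_one] at hc1
    rw [hn n, hc1]
  refine ⟨h1, ?_, ?_, ?_⟩
  · apply mul_of_coprime_of_hecke (fun n => qCoeff g n) (fun p => if p ∣ N then 0 else (p : ℂ)) h1
    intro p hp n
    by_cases hpN : p ∣ N
    · simp only [if_pos hpN, zero_mul, ite_self, add_zero]
      exact hUr p hp hpN n
    · simp only [if_neg hpN]
      exact hTr p hp hpN n
  · intro p r hp hpN
    have := hTr p hp hpN (p ^ (r + 1))
    rw [if_pos (dvd_pow_self p (by omega)), show p ^ (r + 1) * p = p ^ (r + 2) by ring,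
      show p ^ (r + 1) / p = p ^ r by
        rw [pow_succ']; exact Nat.mul_div_cancel_left _ hp.pos] at this
    rw [← this]
    ring
  · intro p r hp hpN
    have := hUr p hp hpN (p ^ (r + 1))
    rw [show p ^ (r + 1) * p = p ^ (r + 2) by ring] at this
    exact this

/-- A common eigenvector for the full Hecke algebra has nonzero first coefficient. -/
theorem qCoeff_one_ne_zero_of_eigen {N : ℕ} [NeZero N] {k : ℤ} (g : CuspForm (Gamma0 N) k)
    (hg : g ≠ 0)
    (hT : ∀ (p : ℕ) (hp : p.Prime) (hpN : ¬ p ∣ N), ∃ c : ℂ, heckeTLin k hp hpN g = c • g)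
    (hU : ∀ (p : ℕ) (_ : p.Prime) (hpN : p ∣ N), ∃ c : ℂ, heckeULin k hpN g = c • g) :
    qCoeff g 1 ≠ 0 := by
  classical
  intro h1
  apply hg
  apply eq_zero_of_coeffs
  have hsmul : ∀ (c : ℂ) (n : ℕ), qCoeff (⇑(c • g)) n = c * qCoeff g n := fun c n =>
    (coeffL N k n).map_smul c g
  intro n hn
  induction n using Nat.strong_induction_on with
  | _ n ih =>
    rcases Nat.eq_or_lt_of_le hn with rfl | hn1
    · exact h1
    · obtain ⟨p, hp, hpn⟩ := Nat.exists_prime_and_dvd (show n ≠ 1 by omega)
      obtain ⟨m, rfl⟩ := hpn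
      have hm : 1 ≤ m := by
        rcases Nat.eq_zero_or_pos m with rfl | h
        · omega
        · exact h
      have hmlt : m < p * m := by
        have := hp.two_le
        nlinarith
      by_cases hpN : p ∣ N
      · obtain ⟨c, hc⟩ := hU p hp hpN
        have := qCoeff_heckeULin hp hpN g m
        rw [hc, hsmul, ih m hmlt hm, mul_zero] at this
        rw [mul_comm p m]
        exact this.symm
      · obtain ⟨c, hc⟩ := hT p hp hpN
        have := qCoeff_heckeTLin hp hpN g m
        rw [hc, hsmul, ih m hmlt hm, mul_zero] at this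
        rw [mul_comm p m]
        by_cases hpm : p ∣ m
        · rw [if_pos hpm] at this
          have h2 : qCoeff g (m / p) = 0 := by
            apply ih
            · exact lt_of_le_of_lt (Nat.div_le_self m p) hmlt
            · exact Nat.div_pos (Nat.le_of_dvd (by omega) hpm) hp.pos
          rw [h2, mul_zero, add_zero] at this
          exact this.symm
        · rw [if_neg hpm, add_zero] at this
          exact this.symm

end Fermat.Agent.DS
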