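import Mathlib
import Fermat.Agent.DS.Eigen
import Fermat.Agent.DS.Lattice
import Fermat.Agent.DS.Restrict
import Fermat.Agent.DS.Normalize

set_option autoImplicit false

open CuspForm CongruenceSubgroup ModularFormClass

/-!
# Deligne–Serre lifting for `Γ₀(N)`, weight `k ≥ 1`, integral forms modulo a prime `p`.
-/

namespace Fermat.Agent.DS

noncomputable section

variable {N : ℕ} [NeZero N] {k : ℤ}

theorem qCoeff_zsmul' (g : CuspForm (Gamma0 N) k) (c : ℤ) (n : ℕ) :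
    qCoeff (⇑(c • g)) n = c * qCoeff g n := by
  have := (coeffL N k n).map_smul (c : ℂ) g
  rw [Int.cast_smul_eq_zsmul] at this
  exact this

theorem qCoeff_sub' (g g' : CuspForm (Gamma0 N) k) (n : ℕ) :
    qCoeff (⇑(g - g')) n = qCoeff g n - qCoeff g' n :=
  (coeffL N k n).map_sub g g'

/-- If the generators act by integer scalars modulo `p`, so does the Hecke algebra. -/
theorem exists_scalar_mod (hk : 1 ≤ k) {p : ℤ} (hp0 : p ≠ 0) (f : CuspForm (Gamma0 N) k)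
    (a : ℕ → ℤ)
    (hT : ∀ (ℓ : ℕ) (hℓ : ℓ.Prime) (hℓN : ¬ ℓ ∣ N),
      heckeTLin k hℓ hℓN f - (a ℓ) • f ∈ divSub N k p)
    (hU : ∀ (ℓ : ℕ) (_ : ℓ.Prime) (hℓN : ℓ ∣ N),
      heckeULin k hℓN f - (a ℓ) • f ∈ divSub N k p)
    (t : Module.End ℂ (CuspForm (Gamma0 N) k)) (ht : t ∈ heckeAlgebra N k (∅ : Set ℕ)) :
    ∃ c : ℤ, t f - c • f ∈ divSub N k p := by
  have ht' : t ∈ Algebra.adjoin ℤ (heckeGenerators N k (∅ : Set ℕ)) := ht
  clear ht
  induction ht' using Algebra.adjoin_induction with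
  | mem x hx =>
    rcases hx with (⟨ℓ, hℓ, hℓN, -, rfl⟩ | ⟨q, hqN, hq, -, rfl⟩)
    · exact ⟨a ℓ, hT ℓ hℓ hℓN⟩
    · exact ⟨a q, hU q hq hqN⟩
  | algebraMap r =>
    refine ⟨r, ?_⟩
    rw [Algebra.algebraMap_eq_smul_one, LinearMap.smul_apply, Module.End.one_apply, sub_self]
    exact Submodule.zero_mem _
  | add x y _ _ hx hy =>
    obtain ⟨c, hc⟩ := hx
    obtain ⟨d, hd⟩ := hy
    refine ⟨c + d, ?_⟩
    rw [LinearMap.add_apply, add_smul, add_sub_add_comm]
    exact Submodule.add_mem _ hc hd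
  | mul x y hx _ hx' hy' =>
    obtain ⟨c, hc⟩ := hx'
    obtain ⟨d, hd⟩ := hy'
    refine ⟨c * d, ?_⟩
    have h3 : x (y f - d • f) ∈ divSub N k p := heckeAlgebra_divSub hk hp0 hx hd
    have : (x * y) f - (c * d) • f = x (y f - d • f) + d • (x f - c • f) := by
      rw [Module.End.mul_apply, map_sub, map_zsmul, smul_sub, smul_smul, mul_comm d c]
      abel
    rw [this]
    exact Submodule.add_mem _ h3 (Submodule.smul_mem _ _ hc)

/-- The ideal of Hecke operators killing `f` modulo `p`. -/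
def killIdeal (hk : 1 ≤ k) {p : ℤ} (hp0 : p ≠ 0) (f : CuspForm (Gamma0 N) k) :
    Ideal (heckeAlgebra N k (∅ : Set ℕ)) where
  carrier := {t | t.1 f ∈ divSub N k p}
  add_mem' := fun {s t} hs ht => by
    show (s.1 + t.1) f ∈ divSub N k p
    exact Submodule.add_mem _ hs ht
  zero_mem' := by
    show (0 : CuspForm (Gamma0 N) k) ∈ divSub N k p
    exact Submodule.zero_mem _
  smul_mem' := fun s t ht => by
    show s.1 (t.1 f) ∈ divSub N k p
    exact heckeAlgebra_divSub hk hp0 s.2 ht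

theorem mem_killIdeal (hk : 1 ≤ k) {p : ℤ} (hp0 : p ≠ 0) (f : CuspForm (Gamma0 N) k)
    (t : heckeAlgebra N k (∅ : Set ℕ)) :
    t ∈ killIdeal hk hp0 f ↔ t.1 f ∈ divSub N k p := Iff.rfl

theorem zsmul_mem_divSub_iff {p : ℤ} (hp : Prime p) (f : CuspForm (Gamma0 N) k) (af : ℕ → ℤ)
    (haf : ∀ n, (af n : ℂ) = qCoeff f n) (hf1 : ¬ p ∣ af 1) (c : ℤ) :
    c • f ∈ divSub N k p ↔ p ∣ c := by
  constructor
  · intro hc
    obtain ⟨d, hd⟩ := hc 1
    rw [qCoeff_zsmul', ← haf 1] at hd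
    have hd' : c * af 1 = p * d := by exact_mod_cast hd
    have h3 : p ∣ c * af 1 := ⟨d, hd'⟩
    rcases (hp.dvd_mul).mp h3 with h | h
    · exact h
    · exact absurd h hf1
  · rintro ⟨d, rfl⟩ n
    refine ⟨d * af n, ?_⟩
    rw [qCoeff_zsmul', ← haf n]
    push_cast
    ring

theorem killIdeal_isPrime (hk : 1 ≤ k) {p : ℤ} (hp : Prime p) (f : CuspForm (Gamma0 N) k)
    (af a : ℕ → ℤ) (haf : ∀ n, (af n : ℂ) = qCoeff f n) (hf1 : ¬ p ∣ af 1)
    (hT : ∀ (ℓ : ℕ) (hℓ : ℓ.Prime) (hℓN : ¬ ℓ ∣ N),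
      heckeTLin k hℓ hℓN f - (a ℓ) • f ∈ divSub N k p)
    (hU : ∀ (ℓ : ℕ) (_ : ℓ.Prime) (hℓN : ℓ ∣ N),
      heckeULin k hℓN f - (a ℓ) • f ∈ divSub N k p) :
    (killIdeal hk hp.ne_zero f).IsPrime := by
  have hint_mem := zsmul_mem_divSub_iff hp f af haf hf1
  refine ⟨?_, ?_⟩
  · rw [Ideal.ne_top_iff_one, mem_killIdeal]
    intro h1
    have h1' : f ∈ divSub N k p := h1
    have := (hint_mem 1).mp (by rw [one_smul]; exact h1')
    exact hp.not_isUnit (isUnit_of_dvd_one this)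
  · intro s t hst
    obtain ⟨c, hc⟩ := exists_scalar_mod hk hp.ne_zero f a hT hU s.1 s.2
    obtain ⟨d, hd⟩ := exists_scalar_mod hk hp.ne_zero f a hT hU t.1 t.2
    have hst' : s.1 (t.1 f) ∈ divSub N k p := hst
    have h3 : s.1 (t.1 f - d • f) ∈ divSub N k p := heckeAlgebra_divSub hk hp.ne_zero s.2 hd
    have h4 : (c * d) • f ∈ divSub N k p := by
      have : (c * d) • f = s.1 (t.1 f) - (s.1 (t.1 f - d • f) + d • (s.1 f - c • f)) := by
        rw [map_sub, map_zsmul, smul_sub, smul_smul, mul_comm d c]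
        abel
      rw [this]
      exact Submodule.sub_mem _ hst' (Submodule.add_mem _ h3 (Submodule.smul_mem _ _ hc))
    rw [hint_mem] at h4
    rcases (hp.dvd_mul).mp h4 with h5 | h5
    · left
      rw [mem_killIdeal]
      have := Submodule.add_mem _ hc ((hint_mem c).mpr h5)
      rwa [sub_add_cancel] at this
    · right
      rw [mem_killIdeal]
      have := Submodule.add_mem _ hd ((hint_mem d).mpr h5)
      rwa [sub_add_cancel] at this

theorem intCast_apply (S : Set ℕ) (c : ℤ) (f : CuspForm (Gamma0 N) k) :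
    ((c : heckeAlgebra N k S) : Module.End ℂ (CuspForm (Gamma0 N) k)) f = c • f := by
  have : (c : heckeAlgebra N k S) = algebraMap ℤ _ c := by simp
  rw [this, Algebra.algebraMap_eq_smul_one]
  rfl

theorem integral_integralClosure (x : integralClosure ℤ ℂ) : IsIntegral ℤ x :=
  (isIntegral_algHom_iff (integralClosure ℤ ℂ).val Subtype.val_injective).mp x.2

/-- **Deligne–Serre lifting lemma** -/
theorem deligneSerre_lift (hk : 1 ≤ k) (hspan : HasIntegralStructure N k) {p : ℤ} (hp : Prime p)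
    (f : CuspForm (Gamma0 N) k)
    (af a : ℕ → ℤ) (haf : ∀ n, (af n : ℂ) = qCoeff f n) (hf1 : ¬ p ∣ af 1)
    (hT : ∀ (ℓ : ℕ) (hℓ : ℓ.Prime) (hℓN : ¬ ℓ ∣ N),
      heckeTLin k hℓ hℓN f - (a ℓ) • f ∈ divSub N k p)
    (hU : ∀ (ℓ : ℕ) (_ : ℓ.Prime) (hℓN : ℓ ∣ N),
      heckeULin k hℓN f - (a ℓ) • f ∈ divSub N k p) :
    ∃ (g : CuspForm (Gamma0 N) k) (χ : heckeAlgebra N k (∅ : Set ℕ) →+* integralClosure ℤ ℂ)
      (Q : Ideal (integralClosure ℤ ℂ)), Q.IsMaximal ∧ ((p : ℤ) : integralClosure ℤ ℂ) ∈ Q ∧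
      qCoeff g 1 = 1 ∧ (∀ t : heckeAlgebra N k (∅ : Set ℕ), t.1 g = (χ t : ℂ) • g) ∧
      (∀ t : heckeAlgebra N k (∅ : Set ℕ), t.1 f ∈ divSub N k p ↔ χ t ∈ Q) := by
  classical
  have hprime := killIdeal_isPrime hk hp f af a haf hf1 hT hU
  have hint_mem := zsmul_mem_divSub_iff hp f af haf hf1
  -- the common eigenvector
  obtain ⟨v, χ, hv0, hv, hχ⟩ := exists_common_eigenvector
    (heckeAlgebra N k (∅ : Set ℕ)).val.toRingHom (killIdeal hk hp.ne_zero f) hprime (by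
    intro t ht
    have : t = 0 := Subtype.ext ht
    rw [this]
    exact Ideal.zero_mem _)
  have hv' : ∀ t : heckeAlgebra N k (∅ : Set ℕ), t.1 v = χ t • v := hv
  have hTv : ∀ (p : ℕ) (hp : p.Prime) (hpN : ¬ p ∣ N), heckeTLin k hp hpN v =
      χ (heckeAlgebra.T hp hpN (Set.notMem_empty p)) • v := fun p hp hpN =>
    hv (heckeAlgebra.T hp hpN (Set.notMem_empty p))
  have hUv : ∀ (p : ℕ) (hp : p.Prime) (hpN : p ∣ N), heckeULin k hpN v =
      χ (heckeAlgebra.U hp hpN (Set.notMem_empty p)) • v := fun p hp hpN =>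
    hv (heckeAlgebra.U hp hpN (Set.notMem_empty p))
  have hv1 : qCoeff v 1 ≠ 0 := qCoeff_one_ne_zero_of_eigen v hv0
    (fun p hp hpN => ⟨_, hTv p hp hpN⟩) (fun p hp hpN => ⟨_, hUv p hp hpN⟩)
  have hg1 : qCoeff (⇑((qCoeff v 1)⁻¹ • v)) 1 = 1 := by
    have := (coeffL N k 1).map_smul (qCoeff v 1)⁻¹ v
    simp only [coeffL_apply, smul_eq_mul] at this
    rw [this, inv_mul_cancel₀ hv1]
  -- integrality of the character
  have hχint : ∀ t : heckeAlgebra N k (∅ : Set ℕ), IsIntegral ℤ (χ t) := fun t =>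
    (heckeAlgebra_isIntegral hk ∅ hspan t).map χ.toIntAlgHom
  obtain ⟨χ', hχ'⟩ : ∃ χ' : heckeAlgebra N k (∅ : Set ℕ) →+* integralClosure ℤ ℂ,
      ∀ t, (χ' t : ℂ) = χ t := ⟨
    { toFun := fun t => ⟨χ t, hχint t⟩
      map_one' := Subtype.ext (map_one χ)
      map_mul' := fun s t => Subtype.ext (map_mul χ s t)
      map_zero' := Subtype.ext (map_zero χ)
      map_add' := fun s t => Subtype.ext (map_add χ s t) }, fun t => rfl⟩
  let : Algebra (heckeAlgebra N k (∅ : Set ℕ)) (integralClosure ℤ ℂ) := χ'.toAlgebra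
  have halg : algebraMap (heckeAlgebra N k (∅ : Set ℕ)) (integralClosure ℤ ℂ) = χ' := rfl
  have : Algebra.IsIntegral (heckeAlgebra N k (∅ : Set ℕ)) (integralClosure ℤ ℂ) :=
    ⟨fun x => (integral_integralClosure x).tower_top⟩
  obtain ⟨Q, -, hQp, hQ⟩ := Ideal.exists_ideal_over_prime_of_isIntegral (S := integralClosure ℤ ℂ)
    (killIdeal hk hp.ne_zero f) ⊥ (by
      intro t ht
      rw [Ideal.mem_comap, Ideal.mem_bot, halg] at ht
      apply hχ
      rw [← hχ', ht]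
      rfl)
  have hQ' : ∀ t : heckeAlgebra N k (∅ : Set ℕ), t.1 f ∈ divSub N k p ↔ χ' t ∈ Q := by
    intro t
    rw [← mem_killIdeal hk hp.ne_zero, ← hQ, Ideal.mem_comap, halg]
  have hpQ : ((p : ℤ) : integralClosure ℤ ℂ) ∈ Q := by
    have h1 := (hQ' (p : heckeAlgebra N k (∅ : Set ℕ))).mp (by
      rw [intCast_apply]
      exact (hint_mem p).mpr (dvd_refl _))
    rwa [map_intCast] at h1
  refine ⟨(qCoeff v 1)⁻¹ • v, χ', Q, ?_, hpQ, hg1, ?_, hQ'⟩
  · -- maximality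
    have hmax : (Q.comap (algebraMap ℤ (integralClosure ℤ ℂ))).IsMaximal := by
      have hp' : (Q.comap (algebraMap ℤ (integralClosure ℤ ℂ))).IsPrime := Ideal.comap_isPrime _ _
      apply hp'.isMaximal
      intro hbot
      have h3 : p ∈ Q.comap (algebraMap ℤ (integralClosure ℤ ℂ)) := by
        rw [Ideal.mem_comap]
        simpa using hpQ
      rw [hbot, Ideal.mem_bot] at h3
      exact hp.ne_zero h3
    have : Algebra.IsIntegral ℤ (integralClosure ℤ ℂ) := ⟨integral_integralClosure⟩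
    exact Ideal.isMaximal_of_isIntegral_of_isMaximal_comap Q hmax
  · intro t
    rw [map_smul, hv', hχ', smul_comm]

end

end Fermat.Agent.DS
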